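/-
S41 [LATTICE] (helper57): basic facts about the lattice `L = Period.parabolicHoms ℤ Γ ℤ`
of integral parabolic homomorphisms of a finitely generated subgroup `Γ ≤ SL(2,ℤ)`.

* `gamma0_fg`                : `Γ₀(N)` is finitely generated;
* `exists_int_decomposition` : every hom `ψ : Γ → A` (`A` torsion-free) is a finite combination
                               `Σ ψ₀ i (·) • b i` of `ℤ`-valued homs vanishing wherever `ψ` does;
* `span_int_parabolicHoms`   : the `ℂ`-span of the integral parabolic homs is `parabolicHoms ℂ Γ ℂ`;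
* `finite_parabolicHomsInt`, `free_parabolicHomsInt`, `finite_quot_smul_top`;
* saturation lemmas.
-/
import Mathlib
import Fermat.Prelude.Def_ModularCurve_PeriodMap

set_option autoImplicit false

open scoped MatrixGroups
open ModularCurve.Period

namespace Fermat.Agent.S41.Lattice57

/-! ### (L1) finite generation -/

theorem sl2z_fg : Group.FG SL(2, ℤ) :=
  Group.fg_iff.mpr ⟨{ModularGroup.S, ModularGroup.T},
    SpecialLinearGroup.SL2Z_generators, by simp⟩

theorem fg_of_finiteIndex (Γ : Subgroup SL(2, ℤ)) [Γ.FiniteIndex] : Group.FG Γ := by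
  have := sl2z_fg
  exact Subgroup.fg_of_index_ne_zero Γ

theorem gamma0_fg (N : ℕ) [NeZero N] : Group.FG (CongruenceSubgroup.Gamma0 N) :=
  fg_of_finiteIndex _

/-! ### (L2) integral decomposition of a hom into a torsion-free group -/

section Decomp

variable {G : Type*} [Group G]

/-- every hom from a finitely generated group into a torsion-free abelian group is a finite
combination of `ℤ`-valued homs, each of which vanishes wherever the original hom vanishes. -/
theorem exists_int_decomposition_gen [Group.FG G] {A : Type*} [AddCommGroup A]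
    [IsAddTorsionFree A] (ψ : Additive G →+ A) :
    ∃ (n : ℕ) (b : Fin n → A) (ψ₀ : Fin n → (Additive G →+ ℤ)),
      (∀ x, ψ x = ∑ i, ψ₀ i x • b i) ∧ (∀ x, ψ x = 0 → ∀ i, ψ₀ i x = 0) := by
  classical
  -- the range, a f.g. torsion-free ℤ-module
  have : AddGroup.FG ψ.range := inferInstance
  have : Module.Finite ℤ ψ.range := Module.Finite.iff_addGroup_fg.mpr inferInstance
  have : IsAddTorsionFree ψ.range :=
    Function.Injective.isAddTorsionFree ψ.range.subtype Subtype.val_injective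
  have : Module.Free ℤ ψ.range := Module.free_of_finite_type_torsion_free'
  let B := Module.finBasis ℤ ψ.range
  refine ⟨_, fun i => (B i : A), fun i => (B.coord i).toAddMonoidHom.comp ψ.rangeRestrict, ?_, ?_⟩
  · intro x
    have h := B.sum_repr (ψ.rangeRestrict x)
    have h2 := congrArg (fun y : ψ.range => (y : A)) h
    simp only [AddSubgroup.val_finsetSum, AddSubgroup.coe_zsmul] at h2
    rw [show ψ x = ((ψ.rangeRestrict x : ψ.range) : A) from rfl, ← h2]
    rfl
  · intro x hx i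
    have h0 : ψ.rangeRestrict x = 0 := Subtype.ext hx
    show B.coord i (ψ.rangeRestrict x) = 0
    rw [h0, map_zero]

end Decomp

section Parabolic

variable (Γ : Subgroup SL(2, ℤ))

/-- post-composition with `ℤ → ℂ` -/
noncomputable def toC (ψ₀ : Additive Γ →+ ℤ) : Additive Γ →+ ℂ := (Int.castAddHom ℂ).comp ψ₀

@[simp] theorem toC_apply (ψ₀ : Additive Γ →+ ℤ) (x : Additive Γ) : toC Γ ψ₀ x = (ψ₀ x : ℂ) := rfl

theorem toC_mem_parabolicHoms {ψ₀ : Additive Γ →+ ℤ} (h : ψ₀ ∈ parabolicHoms ℤ Γ ℤ) :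
    toC Γ ψ₀ ∈ parabolicHoms ℂ Γ ℂ := by
  intro γ hγ
  show ((ψ₀ (Additive.ofMul γ) : ℤ) : ℂ) = 0
  rw [h γ hγ, Int.cast_zero]

/-- element form of the base change statement. -/
theorem exists_int_decomposition [Group.FG Γ] {ψ : Additive Γ →+ ℂ}
    (hψ : ψ ∈ parabolicHoms ℂ Γ ℂ) :
    ∃ (n : ℕ) (b : Fin n → ℂ) (ψ₀ : Fin n → (Additive Γ →+ ℤ)),
      (∀ i, ψ₀ i ∈ parabolicHoms ℤ Γ ℤ) ∧ ψ = ∑ i, b i • toC Γ (ψ₀ i) := by
  obtain ⟨n, b, ψ₀, h1, h2⟩ := exists_int_decomposition_gen ψ
  refine ⟨n, b, ψ₀, fun i γ hγ => h2 _ (hψ γ hγ) i, ?_⟩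
  refine DFunLike.ext _ _ fun x => ?_
  rw [h1 x]
  simp only [AddMonoidHom.coe_finsetSum, Finset.sum_apply, AddMonoidHom.smul_apply, toC_apply,
    zsmul_eq_mul, smul_eq_mul]
  exact Finset.sum_congr rfl fun i _ => mul_comm _ _

/-- **(L2)** the `ℂ`-span of the integral parabolic homs is the space of complex parabolic homs. -/
theorem span_int_parabolicHoms (hfg : Group.FG Γ) :
    Submodule.span ℂ {ψ : Additive Γ →+ ℂ | ∃ ψ₀ ∈ parabolicHoms ℤ Γ ℤ,
        ψ = (Int.castAddHom ℂ).comp ψ₀} = parabolicHoms ℂ Γ ℂ := by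
  apply le_antisymm
  · rw [Submodule.span_le]
    rintro ψ ⟨ψ₀, h₀, rfl⟩
    exact toC_mem_parabolicHoms Γ h₀
  · intro ψ hψ
    obtain ⟨n, b, ψ₀, h1, rfl⟩ := exists_int_decomposition Γ hψ
    refine Submodule.sum_mem _ fun i _ => Submodule.smul_mem _ _ (Submodule.subset_span ?_)
    exact ⟨ψ₀ i, h1 i, rfl⟩

end Parabolic

/-! ### (L3) finiteness and freeness of the lattice -/

section Finite

variable {G : Type*} [Group G]

/-- `Hom(G, ℤ)` is a finitely generated `ℤ`-module for a finitely generated group `G`. -/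
theorem finite_homInt [Group.FG G] : Module.Finite ℤ (Additive G →+ ℤ) := by
  classical
  obtain ⟨S, hS, hfin⟩ := AddGroup.fg_iff.mp (inferInstance : AddGroup.FG (Additive G))
  have : Finite S := hfin
  let ev : (Additive G →+ ℤ) →ₗ[ℤ] (S → ℤ) :=
    { toFun := fun φ s => φ s
      map_add' := fun _ _ => rfl
      map_smul' := fun _ _ => rfl }
  have hinj : Function.Injective ev := by
    intro φ φ' h
    refine AddMonoidHom.eq_of_eqOn_dense hS ?_
    intro s hs
    exact congrFun h ⟨s, hs⟩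
  exact Module.Finite.of_injective ev hinj

end Finite

section QuotFinite

/-- `M / N` is finite when `M` is a finitely generated abelian group and `N` contains `n M`,
`n ≠ 0` (any ring of scalars: the quotient type only depends on the additive subgroup). -/
theorem finite_quot_of_zsmul_mem {R M : Type*} [Ring R] [AddCommGroup M] [Module R M]
    [AddGroup.FG M] (N : Submodule R M) (n : ℤ) (hn : n ≠ 0) (h : ∀ m : M, n • m ∈ N) :
    Finite (M ⧸ N) := by
  have hfg : AddGroup.FG (M ⧸ N) :=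
    AddGroup.fg_of_surjective (f := N.mkQ.toAddMonoidHom) (Submodule.Quotient.mk_surjective N)
  apply AddCommGroup.finite_of_fg_isAddTorsion
  intro x
  obtain ⟨m, rfl⟩ := Submodule.Quotient.mk_surjective _ x
  rw [isOfFinAddOrder_iff_nsmul_eq_zero]
  refine ⟨n.natAbs, Int.natAbs_pos.mpr hn, ?_⟩
  have h1 : (n.natAbs : ℤ) • m ∈ N := by
    rcases Int.natAbs_eq n with h' | h'
    · rw [← h']; exact h m
    · have : (n.natAbs : ℤ) = -n := by omega
      rw [this, neg_smul]
      exact N.neg_mem (h m)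
  rw [natCast_zsmul] at h1
  rw [← Submodule.Quotient.mk_smul, Submodule.Quotient.mk_eq_zero]
  exact h1

end QuotFinite

section ParabolicFinite

open scoped Pointwise

variable (Γ : Subgroup SL(2, ℤ))

theorem isTorsionFree_homInt : Module.IsTorsionFree ℤ (Additive Γ →+ ℤ) := by
  apply Module.IsTorsionFree.of_smul_eq_zero
  intro r φ h
  by_cases hr : r = 0
  · exact Or.inl hr
  · right
    refine DFunLike.ext _ _ fun x => ?_
    have hx : r • φ x = 0 := by
      have := DFunLike.congr_fun h x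
      simpa using this
    simpa [hr] using hx

theorem isNoetherian_homInt [Group.FG Γ] : IsNoetherian ℤ (Additive Γ →+ ℤ) := by
  have := finite_homInt (G := Γ)
  infer_instance

/-- the lattice of integral parabolic homs is a finitely generated `ℤ`-module. -/
theorem finite_parabolicHomsInt [Group.FG Γ] : Module.Finite ℤ (parabolicHoms ℤ Γ ℤ) := by
  have := isNoetherian_homInt Γ
  infer_instance

theorem isTorsionFree_parabolicHomsInt : Module.IsTorsionFree ℤ (parabolicHoms ℤ Γ ℤ) := by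
  have := isTorsionFree_homInt Γ
  infer_instance

/-- ... and free. -/
theorem free_parabolicHomsInt [Group.FG Γ] : Module.Free ℤ (parabolicHoms ℤ Γ ℤ) := by
  have := finite_parabolicHomsInt Γ
  have := isTorsionFree_parabolicHomsInt Γ
  infer_instance

theorem addGroupFG_parabolicHomsInt [Group.FG Γ] : AddGroup.FG (parabolicHoms ℤ Γ ℤ) := by
  have := finite_parabolicHomsInt Γ
  exact Module.Finite.iff_addGroup_fg.mp inferInstance

/-- `L / N` is finite for every submodule `N ⊇ n L`, `n ≠ 0`, over any ring of scalars acting on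
`L = parabolicHoms ℤ Γ ℤ` (`hfin` of `RibetAlgGlobal85` with `N = p • ⊤`). -/
theorem finite_quot_parabolicHomsInt [Group.FG Γ] {R : Type*} [Ring R]
    [Module R (parabolicHoms ℤ Γ ℤ)] (N : Submodule R (parabolicHoms ℤ Γ ℤ)) (n : ℤ) (hn : n ≠ 0)
    (h : ∀ m : parabolicHoms ℤ Γ ℤ, n • m ∈ N) : Finite ((parabolicHoms ℤ Γ ℤ) ⧸ N) := by
  have := addGroupFG_parabolicHomsInt Γ
  exact finite_quot_of_zsmul_mem N n hn h

end ParabolicFinite

/-! ### (L4) saturation -/

section Saturation

variable (Γ : Subgroup SL(2, ℤ))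

/-- `L` is saturated in `Hom(Γ, ℤ)`. -/
theorem mem_parabolicHoms_of_zsmul_mem {φ : Additive Γ →+ ℤ} (n : ℤ) (hn : n ≠ 0)
    (h : n • φ ∈ parabolicHoms ℤ Γ ℤ) : φ ∈ parabolicHoms ℤ Γ ℤ := by
  intro γ hγ
  have h1 : n • φ (Additive.ofMul γ) = 0 := h γ hγ
  simpa [hn] using h1

/-- an integral hom all of whose values are divisible by `n ≠ 0` is `n` times an integral hom,
which is parabolic if the original one is. -/
theorem exists_eq_zsmul_of_forall_dvd {φ : Additive Γ →+ ℤ} (n : ℤ) (hn : n ≠ 0)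
    (h : ∀ x, n ∣ φ x) :
    ∃ ψ : Additive Γ →+ ℤ, φ = n • ψ ∧ (φ ∈ parabolicHoms ℤ Γ ℤ → ψ ∈ parabolicHoms ℤ Γ ℤ) := by
  let ψ : Additive Γ →+ ℤ :=
    { toFun := fun x => φ x / n
      map_zero' := by simp
      map_add' := fun x y => by
        show φ (x + y) / n = φ x / n + φ y / n
        rw [map_add, Int.add_ediv_of_dvd_left (h x)] }
  have hφ : φ = n • ψ := by
    refine DFunLike.ext _ _ fun x => ?_
    show φ x = n • (φ x / n)
    rw [smul_eq_mul, Int.mul_ediv_cancel' (h x)]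
  exact ⟨ψ, hφ, fun hp => mem_parabolicHoms_of_zsmul_mem Γ n hn (hφ ▸ hp)⟩

/-- reduction modulo `n` of an integral hom -/
noncomputable def redMod (n : ℕ) (φ : Additive Γ →+ ℤ) : Additive Γ →+ ZMod n :=
  (Int.castAddHom (ZMod n)).comp φ

@[simp] theorem redMod_apply (n : ℕ) (φ : Additive Γ →+ ℤ) (x : Additive Γ) :
    redMod Γ n φ x = ((φ x : ℤ) : ZMod n) := rfl

/-- **`L / nL → Hom(Γ, ℤ/n)` is injective**: an integral parabolic hom vanishing modulo `n` is
`n` times an integral parabolic hom. -/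
theorem exists_eq_zsmul_of_redMod_eq_zero {φ : Additive Γ →+ ℤ} (n : ℕ) (hn : n ≠ 0)
    (hφ : φ ∈ parabolicHoms ℤ Γ ℤ) (h : redMod Γ n φ = 0) :
    ∃ ψ ∈ parabolicHoms ℤ Γ ℤ, φ = (n : ℤ) • ψ := by
  have hdvd : ∀ x, (n : ℤ) ∣ φ x := fun x => by
    have := DFunLike.congr_fun h x
    rw [redMod_apply] at this
    exact (ZMod.intCast_zmod_eq_zero_iff_dvd _ _).mp this
  obtain ⟨ψ, h1, h2⟩ := exists_eq_zsmul_of_forall_dvd Γ (n : ℤ) (by exact_mod_cast hn) hdvd
  exact ⟨ψ, h2 hφ, h1⟩

end Saturation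

/-! ### the lattice inside `Hom(Γ, ℂ)` (input shape of `DS49.deligne_serre_lattice`) -/

section InC

variable (Γ : Subgroup SL(2, ℤ))

/-- post-composition with `ℤ → ℂ`, as a `ℤ`-linear map -/
noncomputable def toCLin : (Additive Γ →+ ℤ) →ₗ[ℤ] (Additive Γ →+ ℂ) :=
  (AddMonoidHom.compHom (Int.castAddHom ℂ)).toIntLinearMap

@[simp] theorem toCLin_apply (ψ₀ : Additive Γ →+ ℤ) : toCLin Γ ψ₀ = toC Γ ψ₀ := rfl

theorem toCLin_injective : Function.Injective (toCLin Γ) := by
  intro φ φ' h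
  refine DFunLike.ext _ _ fun x => ?_
  have := DFunLike.congr_fun h x
  simpa using this

/-- the lattice of integral parabolic homs inside `Hom(Γ, ℂ)` -/
noncomputable def latticeInC : Submodule ℤ (Additive Γ →+ ℂ) :=
  (parabolicHoms ℤ Γ ℤ).map (toCLin Γ)

theorem mem_latticeInC {ψ : Additive Γ →+ ℂ} :
    ψ ∈ latticeInC Γ ↔ ∃ ψ₀ ∈ parabolicHoms ℤ Γ ℤ, toC Γ ψ₀ = ψ := by
  rw [latticeInC, Submodule.mem_map]
  rfl

theorem latticeInC_fg [Group.FG Γ] : (latticeInC Γ).FG := by
  have := finite_parabolicHomsInt Γ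
  exact (Module.Finite.fg_top (R := ℤ) (M := parabolicHoms ℤ Γ ℤ) |> fun h =>
    (Submodule.fg_top _).mp h).map _

theorem latticeInC_le : (latticeInC Γ : Set (Additive Γ →+ ℂ)) ⊆ parabolicHoms ℂ Γ ℂ := by
  intro ψ hψ
  obtain ⟨ψ₀, h₀, rfl⟩ := (mem_latticeInC Γ).mp hψ
  exact toC_mem_parabolicHoms Γ h₀

/-- the `ℂ`-span of the lattice is the whole space of complex parabolic homs. -/
theorem span_latticeInC [Group.FG Γ] :
    Submodule.span ℂ (latticeInC Γ : Set (Additive Γ →+ ℂ)) = parabolicHoms ℂ Γ ℂ := by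
  apply le_antisymm
  · rw [Submodule.span_le]
    exact latticeInC_le Γ
  · intro ψ hψ
    obtain ⟨n, b, ψ₀, h1, rfl⟩ := exists_int_decomposition Γ hψ
    refine Submodule.sum_mem _ fun i _ => Submodule.smul_mem _ _ (Submodule.subset_span ?_)
    exact (mem_latticeInC Γ).mpr ⟨ψ₀ i, h1 i, rfl⟩

end InC

end Fermat.Agent.S41.Lattice57
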